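import Mathlib
import Fermat.Prelude.Def_AlgebraicCurve_DivisorClassGroup

set_option autoImplicit false

namespace Fermat.Agent.S24

open AlgebraicCurve WithZero IntermediateField

variable {K F : Type*} [Field K] [Field F] [Algebra K F]

section Comap

variable {E : Type*} [Field E] (w : Valuation E ℤᵐ⁰) (s : F →+* E)

/-- If the valuation ring of `w ∘ s` is the valuation ring of the place `v`, then `w ∘ s` is a
positive power of the normalised valuation of `v`. -/
theorem exists_pos_mul_ord (v : Place K F)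
    (hv : v.toValuationSubring = (w.comap s).valuationSubring) :
    ∃ k : ℕ, 0 < k ∧ (∃ t : F, t ≠ 0 ∧ w (s t) = exp (-(k : ℤ))) ∧
      ∀ f : F, f ≠ 0 → w (s f) = exp (-((k : ℤ) * v.ord f)) := by
  have hmem : ∀ f : F, f ∈ v.toValuationSubring ↔ w (s f) ≤ 1 := by
    intro f
    rw [hv, Valuation.mem_valuationSubring_iff]
    rfl
  obtain ⟨π, hπ⟩ := IsDiscreteValuationRing.exists_irreducible v.toValuationSubring
  have hπ0 : (π : F) ≠ 0 := by
    simpa [ne_eq, ZeroMemClass.coe_eq_zero] using hπ.ne_zero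
  have hunit : ∀ u : v.toValuationSubringˣ, w (s ((u : v.toValuationSubring) : F)) = 1 := by
    intro u
    have h1 := (hmem _).1 (u : v.toValuationSubring).2
    have h2 := (hmem _).1 ((u⁻¹ : v.toValuationSubringˣ) : v.toValuationSubring).2
    have h3 : ((u : v.toValuationSubring) : F) * (((u⁻¹ : v.toValuationSubringˣ) :
        v.toValuationSubring) : F) = 1 := by
      have h := congrArg (Subtype.val) (u.mul_inv)
      exact h
    have h4 : w (s ((u : v.toValuationSubring) : F)) *
        w (s (((u⁻¹ : v.toValuationSubringˣ) : v.toValuationSubring) : F)) = 1 := by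
      rw [← map_mul, ← map_mul, h3, map_one, map_one]
    refine le_antisymm h1 ?_
    calc (1 : ℤᵐ⁰) = w (s ((u : v.toValuationSubring) : F)) *
        w (s (((u⁻¹ : v.toValuationSubringˣ) : v.toValuationSubring) : F)) := h4.symm
      _ ≤ w (s ((u : v.toValuationSubring) : F)) * 1 := by gcongr
      _ = _ := mul_one _
  have hwπ0 : w (s (π : F)) ≠ 0 := by
    rw [Valuation.ne_zero_iff]
    exact (map_ne_zero s).2 hπ0
  have hwπ1 : w (s (π : F)) < 1 := by
    refine lt_of_le_of_ne ((hmem _).1 π.2) ?_
    intro h1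
    have hinv : (π : F)⁻¹ ∈ v.toValuationSubring := by
      rw [hmem, map_inv₀, map_inv₀, h1, inv_one]
    apply hπ.not_isUnit
    refine IsUnit.of_mul_eq_one (⟨(π : F)⁻¹, hinv⟩ : v.toValuationSubring) ?_
    ext
    simp [hπ0]
  set l : ℤ := log (w (s (π : F))) with hl
  have hexp : w (s (π : F)) = exp l := (exp_log hwπ0).symm
  have hlneg : l < 0 := by
    have h : exp l < exp (0 : ℤ) := by rw [← hexp]; simpa using hwπ1
    exact exp_lt_exp.1 h
  refine ⟨(-l).toNat, by omega, ⟨π, hπ0, ?_⟩, ?_⟩
  · rw [hexp]; congr 1; omega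
  · intro f hf
    obtain ⟨u, hu⟩ := v.exists_unit_mul_zpow hf hπ
    have hk : (((-l).toNat : ℕ) : ℤ) = -l := by omega
    conv_lhs => rw [hu]
    rw [map_mul, map_mul, hunit u, one_mul, map_zpow₀, map_zpow₀, hexp, ← exp_zsmul, hk]
    congr 1
    simp only [smul_eq_mul]
    ring

end Comap

section Norm

/-- `[L:k]` distinct embeddings of `L` agreeing on `k`: their product computes the norm. -/
theorem prod_embeddings_eq_norm {k L E : Type*} [Field k] [Field L] [Field E] [Algebra k L]
    [FiniteDimensional k L] [Algebra.IsSeparable k L]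
    {X : Type*} [Fintype X] (hcard : Fintype.card X = Module.finrank k L)
    (σ : X → L →+* E) (hσ : Function.Injective σ)
    (hagree : ∀ i j (a : k), σ i (algebraMap k L a) = σ j (algebraMap k L a))
    (i0 : X) (b : L) :
    ∏ i, σ i b = σ i0 (algebraMap k L (Algebra.norm k b)) := by
  classical
  let _ : Algebra k (AlgebraicClosure E) :=
    ((algebraMap E (AlgebraicClosure E)).comp ((σ i0).comp (algebraMap k L))).toAlgebra
  let τ : X → (L →ₐ[k] AlgebraicClosure E) := fun i =>
    { toRingHom := (algebraMap E (AlgebraicClosure E)).comp (σ i)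
      commutes' := fun a => by
        show algebraMap E (AlgebraicClosure E) (σ i (algebraMap k L a)) =
          algebraMap E (AlgebraicClosure E) (σ i0 (algebraMap k L a))
        rw [hagree i i0 a] }
  have hτ : Function.Injective τ := by
    intro i j hij
    apply hσ
    ext x
    have := congrArg (fun f : L →ₐ[k] AlgebraicClosure E => f x) hij
    exact (algebraMap E (AlgebraicClosure E)).injective this
  have hbij : Function.Bijective τ := by
    rw [Fintype.bijective_iff_injective_and_card]
    exact ⟨hτ, by rw [hcard, AlgHom.card]⟩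
  have h1 := Algebra.norm_eq_prod_embeddings k (AlgebraicClosure E) b
  rw [← (Equiv.ofBijective τ hbij).prod_comp] at h1
  apply (algebraMap E (AlgebraicClosure E)).injective
  rw [map_prod]
  exact h1.symm

end Norm

section Main

theorem agree_on_adjoin {E : Type*} [Field E] (y : F) (s t : F →+* E)
    (hK : ∀ a : K, s (algebraMap K F a) = t (algebraMap K F a)) (hy : s y = t y)
    (a : K⟮y⟯) : s (algebraMap K⟮y⟯ F a) = t (algebraMap K⟮y⟯ F a) := by
  have h : (K⟮y⟯).toSubfield ≤ s.eqLocusField t := by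
    show Subfield.closure _ ≤ _
    rw [Subfield.closure_le]
    rintro x (⟨a, rfl⟩ | rfl)
    · exact hK a
    · exact hy
  exact h a.2

/-- **Place counting lemma.** -/
theorem card_zeros_eq_of_embeddings
    (y : F) [FiniteDimensional K⟮y⟯ F] [Algebra.IsSeparable K⟮y⟯ F]
    (hfin : {v : Place K F | 0 < v.ord y}.Finite)
    (hsum : ∑ v ∈ hfin.toFinset, v.ord y = (Module.finrank K⟮y⟯ F : ℤ))
    (hF0 : ∀ O : ValuationSubring F, (∀ a : K, algebraMap K F a ∈ O) → y ∈ O → O ≠ ⊤ →
      ∃ v : Place K F, v.toValuationSubring = O)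
    (hF23 : ∀ (v0 : Place K F) (S : Finset (Place K F)), 0 < v0.ord y → v0 ∉ S →
      (∀ v ∈ S, 0 < v.ord y) → ∃ b : F, b ≠ 0 ∧ (∀ v ∈ S, v.ord b = 0) ∧
        ∃ g : Polynomial K, algebraMap K⟮y⟯ F (Algebra.norm K⟮y⟯ b) = y * Polynomial.aeval y g)
    {E : Type*} [Field E] (w : Valuation E ℤᵐ⁰)
    {X Y : Type*} [Fintype X] [Fintype Y]
    (hcard : Fintype.card X = Module.finrank K⟮y⟯ F)
    (σ : X → F →+* E) (hσ : Function.Injective σ)
    (hK : ∀ i j (a : K), σ i (algebraMap K F a) = σ j (algebraMap K F a))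
    (hy : ∀ i j, σ i y = σ j y)
    (hwK : ∀ i (a : K), a ≠ 0 → w (σ i (algebraMap K F a)) = 1)
    (e0 : ℕ) (he0 : 0 < e0) (hwy : ∀ i, w (σ i y) = exp (-(e0 : ℤ)))
    (π : X → Y) (hπ : Function.Surjective π)
    (hinv : ∀ i j, π i = π j → ∀ f, w (σ i f) = w (σ j f))
    (m : X → ℕ) (hm : ∀ i, m i * Nat.card {j // π j = π i} = e0)
    (hdiv : ∀ i (f : F), f ≠ 0 → ∃ k : ℤ, w (σ i f) = exp ((m i : ℤ) * k)) :
    Nat.card {v : Place K F // 0 < v.ord y} = Fintype.card Y := by
  classical
  have hmemO : ∀ i (f : F), f ∈ (w.comap (σ i)).valuationSubring ↔ w (σ i f) ≤ 1 := by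
    intro i f
    rw [Valuation.mem_valuationSubring_iff]
    rfl
  have hy0 : y ≠ 0 := by
    intro h0
    obtain ⟨i0⟩ : Nonempty X := by
      rw [← Fintype.card_pos_iff, hcard]; exact Module.finrank_pos
    have := hwy i0
    rw [h0, map_zero, map_zero] at this
    exact exp_ne_zero this.symm
  have hKO : ∀ i (a : K), algebraMap K F a ∈ (w.comap (σ i)).valuationSubring := by
    intro i a
    rw [hmemO]
    rcases eq_or_ne a 0 with rfl | ha
    · simp
    · exact (hwK i a ha).le
  have hyO : ∀ i, y ∈ (w.comap (σ i)).valuationSubring := by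
    intro i
    rw [hmemO, hwy, ← exp_zero, exp_le_exp]
    omega
  have hO : ∀ i, ∃ v : Place K F, v.toValuationSubring = (w.comap (σ i)).valuationSubring := by
    intro i
    refine hF0 _ (hKO i) (hyO i) ?_
    intro htop
    have h1 : y⁻¹ ∈ (w.comap (σ i)).valuationSubring := by rw [htop]; trivial
    rw [hmemO, map_inv₀, map_inv₀, hwy, ← exp_neg, ← exp_zero, exp_le_exp] at h1
    omega
  choose V hV using hO
  have hk := fun i => exists_pos_mul_ord w (σ i) (V i) (hV i)
  choose k hkpos ht hkord using hk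
  have hke : ∀ i, (k i : ℤ) * (V i).ord y = e0 := by
    intro i
    have h1 := hkord i y hy0
    rw [hwy, exp_inj] at h1
    omega
  have hVpos : ∀ i, 0 < (V i).ord y := by
    intro i
    have h1 := hke i
    have h2 : (0 : ℤ) < k i := by exact_mod_cast hkpos i
    have h3 : (0 : ℤ) < e0 := by exact_mod_cast he0
    by_contra hcon
    push Not at hcon
    nlinarith
  have hmpos : ∀ i, 0 < m i := by
    intro i
    rcases Nat.eq_zero_or_pos (m i) with h | h
    · have := hm i
      rw [h, zero_mul] at this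
      omega
    · exact h
  have hmk : ∀ i, m i ≤ k i := by
    intro i
    obtain ⟨t, ht0, htw⟩ := ht i
    obtain ⟨k', hk'⟩ := hdiv i t ht0
    rw [htw, exp_inj] at hk'
    have hdvd : (m i : ℤ) ∣ (k i : ℤ) := ⟨-k', by linarith⟩
    have := Int.le_of_dvd (by exact_mod_cast hkpos i) hdvd
    exact_mod_cast this
  have hele : ∀ i, (V i).ord y ≤ (Nat.card {j // π j = π i} : ℤ) := by
    intro i
    have h1 := hke i
    have h2 : ((m i : ℤ)) * (Nat.card {j // π j = π i} : ℤ) = e0 := by exact_mod_cast hm i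
    have h3 : (m i : ℤ) ≤ k i := by exact_mod_cast hmk i
    have h4 : (0 : ℤ) < m i := by exact_mod_cast hmpos i
    have h5 := hVpos i
    by_contra hcon
    push Not at hcon
    nlinarith
  have hVπ : ∀ i j, π i = π j → V i = V j := by
    intro i j hij
    apply Place.ext
    rw [hV i, hV j]
    ext f
    rw [hmemO, hmemO, hinv i j hij f]
  have hsurj : ∀ v0 : Place K F, 0 < v0.ord y → ∃ i, V i = v0 := by
    intro v0 hv0
    by_contra hcon
    push Not at hcon
    obtain ⟨i0⟩ : Nonempty X := by
      rw [← Fintype.card_pos_iff, hcard]; exact Module.finrank_pos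
    obtain ⟨b, hb0, hbS, g, hg⟩ := hF23 v0 (Finset.univ.image V) hv0
      (by simpa using hcon) (by
        intro v hv
        obtain ⟨i, -, rfl⟩ := Finset.mem_image.1 hv
        exact hVpos i)
    have hprod := prod_embeddings_eq_norm hcard σ hσ
      (fun i j a => agree_on_adjoin y (σ i) (σ j) (hK i j) (hy i j) a) i0 b
    have h1 : w (∏ i, σ i b) = 1 := by
      rw [map_prod]
      refine Finset.prod_eq_one fun i _ => ?_
      rw [hkord i b hb0, hbS (V i) (Finset.mem_image_of_mem V (Finset.mem_univ i))]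
      simp
    have hgO : ∀ g : Polynomial K,
        Polynomial.aeval y g ∈ (w.comap (σ i0)).valuationSubring := by
      intro g
      induction g using Polynomial.induction_on' with
      | add p q hp hq => simpa using add_mem hp hq
      | monomial n a =>
        rw [Polynomial.aeval_monomial]
        exact mul_mem (hKO i0 a) (pow_mem (hyO i0) n)
    have h2 : w (∏ i, σ i b) < 1 := by
      rw [hprod, hg, map_mul, map_mul, hwy]
      calc exp (-(e0 : ℤ)) * w (σ i0 (Polynomial.aeval y g))
          ≤ exp (-(e0 : ℤ)) * 1 := by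
            gcongr
            exact (hmemO i0 _).1 (hgO g)
        _ = exp (-(e0 : ℤ)) := mul_one _
        _ < exp (0 : ℤ) := by rw [exp_lt_exp]; omega
        _ = 1 := exp_zero
    rw [h1] at h2
    exact lt_irrefl _ h2
  -- counting
  have hsurj' : ∀ v : Place K F, ∃ i, 0 < v.ord y → V i = v := by
    intro v
    by_cases hv : 0 < v.ord y
    · obtain ⟨i, hi⟩ := hsurj v hv
      exact ⟨i, fun _ => hi⟩
    · obtain ⟨i0⟩ : Nonempty X := by
        rw [← Fintype.card_pos_iff, hcard]; exact Module.finrank_pos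
      exact ⟨i0, fun h => absurd h hv⟩
  choose ι hι using hsurj'
  set Z := hfin.toFinset with hZ
  have hmemZ : ∀ v, v ∈ Z ↔ 0 < v.ord y := by
    intro v; simp [hZ]
  let c : Y → ℕ := fun y' => Nat.card {j // π j = y'}
  have hcpos : ∀ y', 0 < c y' := by
    intro y'
    obtain ⟨i, hi⟩ := hπ y'
    have : Nonempty {j // π j = y'} := ⟨⟨i, hi⟩⟩
    exact Nat.card_pos
  have hcsum : ∑ y', c y' = Fintype.card X := by
    have h1 : Fintype.card X = Fintype.card (Σ y', {j // π j = y'}) :=
      Fintype.card_congr (Equiv.sigmaFiberEquiv π).symm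
    rw [h1, Fintype.card_sigma]
    refine Finset.sum_congr rfl fun y' _ => ?_
    exact Nat.card_eq_fintype_card
  let t : Place K F → Y := fun v => π (ι v)
  have htinj : Set.InjOn t Z := by
    intro v hv v' hv' hvv'
    have h1 := hι v ((hmemZ v).1 hv)
    have h2 := hι v' ((hmemZ v').1 hv')
    rw [← h1, ← h2]
    exact hVπ _ _ hvv'
  have hle1 : ∑ v ∈ Z, v.ord y ≤ ∑ v ∈ Z, (c (t v) : ℤ) := by
    refine Finset.sum_le_sum fun v hv => ?_
    have h1 := hι v ((hmemZ v).1 hv)
    have h2 := hele (ι v)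
    rw [h1] at h2
    exact h2
  have himg : ∑ v ∈ Z, (c (t v) : ℤ) = ∑ y' ∈ Z.image t, (c y' : ℤ) :=
    (Finset.sum_image (f := fun y' => (c y' : ℤ)) htinj).symm
  have huniv : Z.image t = Finset.univ := by
    by_contra hne
    have hss : Z.image t ⊂ Finset.univ := by
      rw [Finset.ssubset_univ_iff]; exact hne
    have hlt : ∑ y' ∈ Z.image t, c y' < ∑ y' ∈ Finset.univ, c y' :=
      Finset.sum_lt_sum_of_subset hss.subset
        (i := (Finset.exists_of_ssubset hss).choose)
        (Finset.exists_of_ssubset hss).choose_spec.1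
        (Finset.exists_of_ssubset hss).choose_spec.2 (hcpos _) (fun _ _ _ => Nat.zero_le _)
    have hlt' : ∑ y' ∈ Z.image t, (c y' : ℤ) < ∑ y' ∈ Finset.univ, (c y' : ℤ) := by
      exact_mod_cast hlt
    have h3 : (∑ y' ∈ Finset.univ, (c y' : ℤ)) = Module.finrank K⟮y⟯ F := by
      rw [← hcard, ← hcsum]; push_cast; rfl
    rw [hsum, himg] at hle1
    omega
  have hcardZ : Z.card = Fintype.card Y := by
    rw [← Finset.card_univ, ← huniv, Finset.card_image_of_injOn htinj]
  rw [← hcardZ]
  have : Nat.card {v : Place K F // 0 < v.ord y} = Nat.card ({v : Place K F | 0 < v.ord y} : Set _) :=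
    rfl
  rw [this, Nat.card_coe_set_eq, Set.ncard_eq_toFinset_card _ hfin]

end Main

end Fermat.Agent.S24
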