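import Fermat.Agent.S24.FF.Extension

set_option autoImplicit false
set_option linter.style.haveILetI false

open AlgebraicCurve IsDedekindDomain IntermediateField
open scoped IntermediateField.algebraAdjoinAdjoin

namespace Fermat.Agent.S24

variable (K : Type*) {F : Type*} [Field K] [Field F] [Algebra K F]

/-- `y` is transcendental over `K` and `F` is finite over `K(y)`. -/
structure IsFiniteParam (y : F) : Prop where
  transcendental : Transcendental K y
  finite : FiniteDimensional K⟮y⟯ F

/-- the polynomial ring `K[y]` inside `F`. -/
abbrev polyRing (y : F) : Subalgebra K F := Algebra.adjoin K {y}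

/-- the integral closure of `K[y]` in `F`. -/
abbrev intRing (y : F) : Subalgebra (polyRing K y) F := integralClosure (polyRing K y) F

variable {K}
variable {y : F}

namespace IsFiniteParam

theorem ne_zero (hy : IsFiniteParam K y) : y ≠ 0 := by
  rintro rfl
  exact hy.transcendental isAlgebraic_zero

theorem isPrincipalIdealRing (hy : IsFiniteParam K y) :
    IsPrincipalIdealRing (polyRing K y) :=
  IsPrincipalIdealRing.of_surjective
    (Polynomial.algEquivOfTranscendental K y hy.transcendental).toRingEquiv.toRingHom
    (Polynomial.algEquivOfTranscendental K y hy.transcendental).surjective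

theorem isScalarTower_intRing : IsScalarTower K (intRing K y) F :=
  IsScalarTower.of_algebraMap_eq (fun _ => rfl)

theorem isScalarTower_polyRing_intRing : IsScalarTower K (polyRing K y) (intRing K y) :=
  IsScalarTower.of_algebraMap_eq (fun _ => rfl)

theorem finiteType_polyRing : Algebra.FiniteType K (polyRing K y) := by
  rw [← Subalgebra.fg_iff_finiteType]
  exact ⟨{y}, by simp⟩

theorem isDedekindDomain [CharZero K] (hy : IsFiniteParam K y) :
    IsDedekindDomain (intRing K y) := by
  haveI := hy.isPrincipalIdealRing
  haveI := hy.finite
  exact integralClosure.isDedekindDomain (polyRing K y) K⟮y⟯ F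

theorem isFractionRing (hy : IsFiniteParam K y) : IsFractionRing (intRing K y) F := by
  haveI := hy.finite
  exact integralClosure.isFractionRing_of_finite_extension K⟮y⟯ F

theorem moduleFinite [CharZero K] (hy : IsFiniteParam K y) :
    Module.Finite (polyRing K y) (intRing K y) := by
  haveI := hy.isPrincipalIdealRing
  haveI := hy.finite
  exact IsIntegralClosure.finite (polyRing K y) K⟮y⟯ F (intRing K y)

theorem finiteType_intRing [CharZero K] (hy : IsFiniteParam K y) :
    Algebra.FiniteType K (intRing K y) := by
  haveI := hy.moduleFinite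
  haveI := finiteType_polyRing (K := K) (y := y)
  haveI := isScalarTower_polyRing_intRing (K := K) (y := y)
  exact Algebra.FiniteType.trans (S := polyRing K y) inferInstance inferInstance

/-- the element `y` of `K[y]`. -/
def gen (K : Type*) {F : Type*} [Field K] [Field F] [Algebra K F] (y : F) : polyRing K y :=
  ⟨y, Algebra.subset_adjoin rfl⟩

theorem isMaximal_span_gen (hy : IsFiniteParam K y) : (Ideal.span {gen K y}).IsMaximal := by
  haveI := hy.isPrincipalIdealRing
  apply PrincipalIdealRing.isMaximal_of_irreducible
  have h : gen K y = (Polynomial.algEquivOfTranscendental K y hy.transcendental) Polynomial.X := by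
    apply Subtype.ext
    simp [gen]
  rw [h]
  exact (MulEquiv.irreducible_iff
    (Polynomial.algEquivOfTranscendental K y hy.transcendental).toMulEquiv).2 Polynomial.irreducible_X

theorem polyRing_le (O : ValuationSubring F) (hK : ∀ a : K, algebraMap K F a ∈ O) (hyO : y ∈ O)
    (a : polyRing K y) : (a : F) ∈ O := by
  let O' : Subalgebra K F := { O.toSubring with algebraMap_mem' := hK }
  have : polyRing K y ≤ O' := Algebra.adjoin_le (by rintro _ rfl; exact hyO)
  exact this a.2

theorem intRing_le (O : ValuationSubring F) (hK : ∀ a : K, algebraMap K F a ∈ O) (hyO : y ∈ O)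
    (b : intRing K y) : (b : F) ∈ O := by
  have hb : IsIntegral (polyRing K y) (b : F) := b.2
  obtain ⟨p, hp, hp0⟩ := hb
  let φ : polyRing K y →+* O :=
    (algebraMap (polyRing K y) F).codRestrict O.toSubring (polyRing_le O hK hyO)
  have h1 : IsIntegral O (b : F) := by
    refine ⟨p.map φ, hp.map φ, ?_⟩
    rw [Polynomial.eval₂_map]
    exact hp0
  obtain ⟨x, hx⟩ := IsIntegrallyClosed.isIntegral_iff.1 h1
  rw [← hx]
  exact x.2

section Main

variable [CharZero K]

/-- (F0) a proper valuation subring containing `K` and `y` is the ring of a place. -/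
theorem exists_place_eq (hy : IsFiniteParam K y) (O : ValuationSubring F)
    (hK : ∀ a : K, algebraMap K F a ∈ O) (hyO : y ∈ O) (hO : O ≠ ⊤) :
    ∃ v : Place K F, v.toValuationSubring = O := by
  haveI := hy.isDedekindDomain
  haveI := hy.isFractionRing
  haveI := isScalarTower_intRing (K := K) (y := y)
  obtain ⟨w, hw⟩ := exists_valuationSubring_eq (R := intRing K y) O hO (intRing_le O hK hyO)
  exact ⟨Place.ofHeightOneSpectrum w, hw.symm⟩

/-- the place attached to a prime of the integral closure of `K[y]`. -/
noncomputable def place (hy : IsFiniteParam K y) (w : HeightOneSpectrum (intRing K y)) :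
    Place K F :=
  haveI := hy.isDedekindDomain
  haveI := hy.isFractionRing
  haveI := isScalarTower_intRing (K := K) (y := y)
  Place.ofHeightOneSpectrum w

theorem place_injective (hy : IsFiniteParam K y) : Function.Injective hy.place := by
  haveI := hy.isDedekindDomain
  haveI := hy.isFractionRing
  haveI := isScalarTower_intRing (K := K) (y := y)
  exact ofHeightOneSpectrum_injective

theorem exists_eq_place (hy : IsFiniteParam K y) (v : Place K F) (hv : y ∈ v.toValuationSubring) :
    ∃ w, v = hy.place w := by
  haveI := hy.isDedekindDomain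
  haveI := hy.isFractionRing
  haveI := isScalarTower_intRing (K := K) (y := y)
  exact exists_eq_ofHeightOneSpectrum v (intRing_le _ v.algebraMap_mem' hv)

theorem mem_place (hy : IsFiniteParam K y) (w : HeightOneSpectrum (intRing K y)) :
    y ∈ (hy.place w).toValuationSubring := by
  haveI := hy.isDedekindDomain
  haveI := hy.isFractionRing
  haveI := isScalarTower_intRing (K := K) (y := y)
  exact algebraMap_mem_ofHeightOneSpectrum w (algebraMap (polyRing K y) (intRing K y) (gen K y))

/-- the element `y` of the integral closure of `K[y]`. -/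
def gen' (K : Type*) {F : Type*} [Field K] [Field F] [Algebra K F] (y : F) : intRing K y :=
  algebraMap (polyRing K y) (intRing K y) (gen K y)

omit [CharZero K] in
theorem algebraMap_gen' : algebraMap (intRing K y) F (gen' K y) = y := rfl

theorem gen'_ne_zero (hy : IsFiniteParam K y) : gen' K y ≠ 0 := by
  intro h
  apply hy.ne_zero
  rw [← algebraMap_gen' (K := K) (y := y), h, map_zero]

theorem pos_ord_place_iff (hy : IsFiniteParam K y) (w : HeightOneSpectrum (intRing K y)) :
    0 < (hy.place w).ord y ↔ gen' K y ∈ w.asIdeal := by
  haveI := hy.isDedekindDomain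
  haveI := hy.isFractionRing
  haveI := isScalarTower_intRing (K := K) (y := y)
  have := pos_ord_iff_mem (K := K) (F := F) w hy.gen'_ne_zero
  rw [algebraMap_gen'] at this
  exact this

theorem finite_primes (hy : IsFiniteParam K y) :
    {w : HeightOneSpectrum (intRing K y) | gen' K y ∈ w.asIdeal}.Finite := by
  haveI := hy.isDedekindDomain
  have := Ideal.finite_factors (I := Ideal.span {gen' K y})
    (fun h => hy.gen'_ne_zero (Ideal.span_singleton_eq_bot.1 h))
  refine this.subset ?_
  intro w hw
  exact Ideal.dvd_span_singleton.2 hw

theorem zeros_eq_image (hy : IsFiniteParam K y) :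
    {v : Place K F | 0 < v.ord y} =
      hy.place '' {w : HeightOneSpectrum (intRing K y) | gen' K y ∈ w.asIdeal} := by
  ext v
  constructor
  · intro hv
    have hv' : 0 < v.ord y := hv
    obtain ⟨w, rfl⟩ := hy.exists_eq_place v ((Place.mem_iff_ord_nonneg v hy.ne_zero).2 hv'.le)
    exact ⟨w, (hy.pos_ord_place_iff w).1 hv', rfl⟩
  · rintro ⟨w, hw, rfl⟩
    exact (hy.pos_ord_place_iff w).2 hw

/-- (F1) the zeros of `y` form a finite set. -/
theorem finite_zeros (hy : IsFiniteParam K y) : {v : Place K F | 0 < v.ord y}.Finite := by
  rw [hy.zeros_eq_image]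
  exact hy.finite_primes.image _

/-- (F1) the zeros of `y`, counted with multiplicity. -/
theorem sum_zeros [IsAlgClosed K] (hy : IsFiniteParam K y) :
    ∑ v ∈ hy.finite_zeros.toFinset, v.ord y = (Module.finrank K⟮y⟯ F : ℤ) := by
  classical
  haveI := hy.isPrincipalIdealRing
  haveI := hy.finite
  haveI := hy.isDedekindDomain
  haveI := hy.isFractionRing
  haveI := isScalarTower_intRing (K := K) (y := y)
  haveI := isScalarTower_polyRing_intRing (K := K) (y := y)
  haveI := hy.moduleFinite
  haveI := hy.finiteType_intRing
  have h := sum_ord_eq_finrank (K := K) (F := F) K⟮y⟯ (B := intRing K y) (gen K y)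
    hy.isMaximal_span_gen (fun h => hy.ne_zero (congrArg Subtype.val h))
    hy.finite_primes.toFinset (fun w => hy.finite_primes.mem_toFinset)
  rw [← h]
  have h2 : hy.finite_zeros.toFinset = hy.finite_primes.toFinset.image hy.place := by
    ext v
    simp only [Set.Finite.mem_toFinset, Finset.mem_image]
    rw [hy.zeros_eq_image]
    simp
  rw [h2, Finset.sum_image (fun _ _ _ _ h => hy.place_injective h)]
  rfl

end Main

end IsFiniteParam

end Fermat.Agent.S24
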