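import Fermat.Agent.S24.FF.Places

set_option autoImplicit false
set_option linter.style.haveILetI false

open AlgebraicCurve IsDedekindDomain IntermediateField
open scoped IntermediateField.algebraAdjoinAdjoin

namespace Fermat.Agent.S24

variable {K : Type*} {F : Type*} [Field K] [Field F] [Algebra K F] {y : F}

namespace IsFiniteParam

theorem isAlgebraic_polyRing (hy : IsFiniteParam K y) : Algebra.IsAlgebraic (polyRing K y) F := by
  haveI := hy.finite
  exact (IsFractionRing.comap_isAlgebraic_iff (A := polyRing K y) (K := K⟮y⟯) (C := F)).2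
    inferInstance

theorem trdeg_le_one (hy : IsFiniteParam K y) : Algebra.trdeg K F ≤ 1 := by
  haveI := hy.isAlgebraic_polyRing
  simpa using Algebra.IsAlgebraic.trdeg_le_cardinalMk K ({y} : Set F)

theorem of_transcendental (hy : IsFiniteParam K y) {f : F} (hf : Transcendental K f) :
    IsFiniteParam K f := by
  refine ⟨hf, ?_⟩
  have hind : AlgebraicIndependent K (fun _ : PUnit => f) :=
    algebraicIndependent_unique_type_iff.mpr hf
  have hb := hind.isTranscendenceBasis_of_trdeg_le_of_finite (by simpa using hy.trdeg_le_one)
  have halg := hb.isAlgebraic_field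
  rw [Set.range_const] at halg
  haveI := hy.finite
  haveI : Algebra.EssFiniteType K K⟮y⟯ := IntermediateField.essFiniteType_iff.2 ⟨{y}, by simp⟩
  haveI : Algebra.EssFiniteType K F := Algebra.EssFiniteType.comp K K⟮y⟯ F
  haveI : Algebra.EssFiniteType K⟮f⟯ F := Algebra.EssFiniteType.of_comp K K⟮f⟯ F
  obtain ⟨s, hs⟩ := IntermediateField.fg_top K⟮f⟯ F
  have hfin := finiteDimensional_adjoin (K := K⟮f⟯) (S := (s : Set F))
    fun x _ => (halg.isAlgebraic x).isIntegral
  rw [hs] at hfin
  exact topEquiv.toLinearEquiv.finiteDimensional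

theorem of_not_mem_range [IsAlgClosed K] (hy : IsFiniteParam K y) {f : F}
    (hf : f ∉ Set.range (algebraMap K F)) : IsFiniteParam K f := by
  apply hy.of_transcendental
  intro h
  exact hf (minpoly.mem_range_of_degree_eq_one K f
    (IsAlgClosed.degree_eq_one_of_irreducible K (minpoly.irreducible h.isIntegral)))

variable [IsAlgClosed K] [CharZero K]

theorem finite_support_ord (hy : IsFiniteParam K y) (f : F) : {v : Place K F | v.ord f ≠ 0}.Finite := by
  by_cases hf : f ∈ Set.range (algebraMap K F)
  · obtain ⟨a, rfl⟩ := hf
    simp [Place.ord_algebraMap]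
  · have h := hy.of_not_mem_range hf
    refine (h.finite_zeros.union h.finite_poles).subset ?_
    intro v hv
    rcases lt_or_gt_of_ne hv with h1 | h1
    · exact Or.inr h1
    · exact Or.inl h1

theorem degree_eq_sum (hy : IsFiniteParam K y) (D : Divisor K F) :
    Divisor.degree D = ∑ v ∈ D.support, D v := by
  conv_lhs => rw [← Finsupp.sum_single D]
  rw [Finsupp.sum, map_sum]
  refine Finset.sum_congr rfl fun v _ => ?_
  rw [Divisor.degree_single, hy.deg_eq_one v]
  simp

theorem degree_eq_sum_of_subset (hy : IsFiniteParam K y) (D : Divisor K F)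
    (S : Finset (Place K F)) (hS : D.support ⊆ S) :
    Divisor.degree D = ∑ v ∈ S, D v := by
  rw [hy.degree_eq_sum D]
  refine Finset.sum_subset hS ?_
  intro v _ hv
  simpa using hv

/-- (A-princ) principal divisors have degree `0`. -/
theorem degree_eq_zero_of_principal (hy : IsFiniteParam K y) (f : F) (hf : f ≠ 0)
    (D : Divisor K F) (hD : ∀ v, D v = v.ord f) : Divisor.degree D = 0 := by
  classical
  by_cases hfK : f ∈ Set.range (algebraMap K F)
  · obtain ⟨a, rfl⟩ := hfK
    have : D = 0 := by
      ext v
      rw [hD v, Place.ord_algebraMap]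
      rfl
    rw [this, map_zero]
  · have h := hy.of_not_mem_range hfK
    rw [hy.degree_eq_sum_of_subset D (h.finite_zeros.toFinset ∪ h.finite_poles.toFinset)]
    · rw [Finset.sum_union]
      · simp only [hD]
        rw [h.sum_zeros, h.sum_poles]
        ring
      · rw [Finset.disjoint_left]
        intro v hv hv'
        simp only [Set.Finite.mem_toFinset, Set.mem_ofPred_eq] at hv hv'
        omega
    · intro v hv
      rw [Finsupp.mem_support_iff, hD v] at hv
      simp only [Finset.mem_union, Set.Finite.mem_toFinset, Set.mem_ofPred_eq]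
      omega

/-- existence of the divisor of a function. -/
theorem exists_divisor (hy : IsFiniteParam K y) (f : F) :
    ∃ D : Divisor K F, ∀ v, D v = v.ord f :=
  ⟨Finsupp.onFinset (hy.finite_support_ord f).toFinset (fun v => v.ord f)
    (fun v hv => by simpa using hv), fun _ => rfl⟩

theorem hasPrincipalDivisors (hy : IsFiniteParam K y) : HasPrincipalDivisors K F where
  exists_divisor f hf := by
    obtain ⟨D, hD⟩ := hy.exists_divisor f
    exact ⟨D, hD, hy.degree_eq_zero_of_principal f hf D hD⟩

end IsFiniteParam

end Fermat.Agent.S24
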