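import Fermat.Agent.S24.FF.Param
import Fermat.Agent.S24.FF.PlaceCount
import Fermat.Agent.S24.OrbitCount

set_option autoImplicit false

open AlgebraicCurve IsDedekindDomain IntermediateField Polynomial
open scoped IntermediateField.algebraAdjoinAdjoin

namespace Fermat.Agent.S24

variable {K F : Type*} [Field K] [Field F] [Algebra K F]

section Glue

variable (K) (y : F)

/-- `K[y]`. -/
abbrev glueA : Subalgebra K F := Algebra.adjoin K {y}

/-- integral closure of `K[y]` in `F` -/
abbrev glueB : Subalgebra (glueA K y) F := integralClosure (glueA K y) F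

variable {K y}

theorem glueA_isPrincipalIdealRing (hy : Transcendental K y) :
    IsPrincipalIdealRing (glueA K y) :=
  IsPrincipalIdealRing.of_surjective
    (Polynomial.algEquivOfTranscendental K y hy).toRingEquiv.toRingHom
    (Polynomial.algEquivOfTranscendental K y hy).surjective

theorem glueB_isFractionRing [FiniteDimensional K⟮y⟯ F] : IsFractionRing (glueB K y) F :=
  integralClosure.isFractionRing_of_finite_extension K⟮y⟯ F

theorem glueB_isDedekindDomain (hy : Transcendental K y) [FiniteDimensional K⟮y⟯ F]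
    [Algebra.IsSeparable K⟮y⟯ F] : IsDedekindDomain (glueB K y) := by
  have := glueA_isPrincipalIdealRing hy
  exact integralClosure.isDedekindDomain (glueA K y) K⟮y⟯ F

theorem glueB_finite (hy : Transcendental K y) [FiniteDimensional K⟮y⟯ F]
    [Algebra.IsSeparable K⟮y⟯ F] : Module.Finite (glueA K y) (glueB K y) := by
  have := glueA_isPrincipalIdealRing hy
  exact IsIntegralClosure.finite (glueA K y) K⟮y⟯ F (glueB K y)

/-- A valuation subring containing `K` and `y` contains the integral closure of `K[y]`. -/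
theorem glueB_le (O : ValuationSubring F) (hK : ∀ a : K, algebraMap K F a ∈ O) (hyO : y ∈ O)
    (r : glueB K y) : algebraMap (glueB K y) F r ∈ O := by
  have hA : ∀ a : glueA K y, algebraMap (glueA K y) F a ∈ O.toSubring := by
    intro a
    have h : glueA K y ≤ (⟨O.toSubring.toSubsemiring, hK⟩ : Subalgebra K F) :=
      Algebra.adjoin_le (by simpa using hyO)
    exact h a.2
  let φ : glueA K y →+* O := (algebraMap (glueA K y) F).codRestrict O.toSubring hA
  obtain ⟨p, hp, hpr⟩ := r.2
  have hint : IsIntegral O (r : F) := ⟨p.map φ, hp.map φ, by rw [eval₂_map]; exact hpr⟩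
  obtain ⟨z, hz⟩ := IsIntegrallyClosed.isIntegral_iff.1 hint
  rw [show algebraMap (glueB K y) F r = (r : F) from rfl, ← hz]
  exact z.2

theorem glue_hF0 (hy : Transcendental K y) [FiniteDimensional K⟮y⟯ F]
    [Algebra.IsSeparable K⟮y⟯ F]
    (O : ValuationSubring F) (hK : ∀ a : K, algebraMap K F a ∈ O) (hyO : y ∈ O) (hO : O ≠ ⊤) :
    ∃ v : Place K F, v.toValuationSubring = O := by
  have := glueB_isDedekindDomain hy
  have := glueB_isFractionRing (K := K) (y := y)
  obtain ⟨w, hw⟩ := exists_valuationSubring_eq (R := glueB K y) O hO (glueB_le O hK hyO)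
  exact ⟨Place.ofHeightOneSpectrum w, by rw [Place.ofHeightOneSpectrum_toValuationSubring, hw]⟩

/-- `y` as an element of the integral closure. -/
def glueY : glueB K y :=
  algebraMap (glueA K y) (glueB K y) ⟨y, Algebra.self_mem_adjoin_singleton K y⟩

@[simp] theorem algebraMap_glueY : algebraMap (glueB K y) F (glueY (K := K) (y := y)) = y := rfl

/-- Places at which `y` is integral come from primes of `glueB`. -/
theorem exists_eq_ofHeightOneSpectrum_glueB (hy : Transcendental K y) [FiniteDimensional K⟮y⟯ F]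
    [Algebra.IsSeparable K⟮y⟯ F] (v : Place K F) (hv : 0 ≤ v.ord y) :
    haveI := glueB_isDedekindDomain hy
    haveI := glueB_isFractionRing (K := K) (y := y)
    ∃ w : HeightOneSpectrum (glueB K y), v = Place.ofHeightOneSpectrum w := by
  have := glueB_isDedekindDomain hy
  have := glueB_isFractionRing (K := K) (y := y)
  have hy0 : y ≠ 0 := fun h => hy (h ▸ isAlgebraic_zero)
  exact exists_eq_ofHeightOneSpectrum v
    (glueB_le _ v.algebraMap_mem' ((Place.mem_iff_ord_nonneg v hy0).2 hv))

theorem glue_hF23 (hy : Transcendental K y) [FiniteDimensional K⟮y⟯ F]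
    [Algebra.IsSeparable K⟮y⟯ F]
    (v0 : Place K F) (S : Finset (Place K F)) (hv0 : 0 < v0.ord y) (hS0 : v0 ∉ S)
    (hS : ∀ v ∈ S, 0 < v.ord y) : ∃ b : F, b ≠ 0 ∧ (∀ v ∈ S, v.ord b = 0) ∧
        ∃ g : Polynomial K, algebraMap K⟮y⟯ F (Algebra.norm K⟮y⟯ b) = y * Polynomial.aeval y g := by
  classical
  have := glueA_isPrincipalIdealRing hy
  have := glueB_isDedekindDomain hy
  have := glueB_isFractionRing (K := K) (y := y)
  have := glueB_finite hy
  have hy0 : y ≠ 0 := fun h => hy (h ▸ isAlgebraic_zero)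
  obtain ⟨w0, hw0⟩ := exists_eq_ofHeightOneSpectrum_glueB hy v0 hv0.le
  have hW : ∀ v : Place K F, ∃ w : HeightOneSpectrum (glueB K y),
      0 < v.ord y → v = Place.ofHeightOneSpectrum w := by
    intro v
    by_cases hv : 0 < v.ord y
    · obtain ⟨w, hw⟩ := exists_eq_ofHeightOneSpectrum_glueB hy v hv.le
      exact ⟨w, fun _ => hw⟩
    · exact ⟨w0, fun h => absurd h hv⟩
  choose W hW using hW
  -- prime avoidance
  have hav : ¬ ((w0.asIdeal : Set (glueB K y)) ⊆
      ⋃ I ∈ ((insert ⊥ (S.image fun v => (W v).asIdeal) : Finset (Ideal (glueB K y))) :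
        Set (Ideal (glueB K y))), (I : Set (glueB K y))) := by
    rw [Ideal.subset_union_prime (f := fun I : Ideal (glueB K y) => I) ⊥ ⊥]
    · rintro ⟨I, hI, hle⟩
      rw [Finset.mem_insert, Finset.mem_image] at hI
      rcases hI with rfl | ⟨v, hvS, rfl⟩
      · exact w0.ne_bot (le_bot_iff.1 hle)
      · have h1 : w0.asIdeal = (W v).asIdeal :=
          w0.isMaximal.eq_of_le (W v).isPrime.ne_top hle
        have h2 : w0 = W v := HeightOneSpectrum.ext h1
        apply hS0
        rw [hw0, h2, ← hW v (hS v hvS)]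
        exact hvS
    · intro I hI _ _
      rw [Finset.mem_insert, Finset.mem_image] at hI
      rcases hI with rfl | ⟨v, hvS, rfl⟩
      · exact Ideal.isPrime_bot
      · exact (W v).isPrime
  rw [Set.not_subset] at hav
  obtain ⟨b, hb0, hb⟩ := hav
  simp only [Finset.coe_insert, Finset.coe_image, Set.mem_insert_iff, Set.mem_image,
    Finset.mem_coe, Set.iUnion_iUnion_eq_or_left, Set.mem_union, Set.mem_iUnion, not_or,
    not_exists] at hb
  obtain ⟨hbne, hbS⟩ := hb
  have hbne' : b ≠ 0 := fun h => hbne (by rw [h]; exact (⊥ : Ideal (glueB K y)).zero_mem)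
  have hbF : algebraMap (glueB K y) F b ≠ 0 := algebraMap_ne_zero' hbne'
  refine ⟨algebraMap (glueB K y) F b, hbF, ?_, ?_⟩
  · intro v hv
    have h1 : b ∉ (W v).asIdeal := hbS _ ⟨v, hv, rfl⟩
    have h2 := hW v (hS v hv)
    have h3 : ¬ 0 < v.ord (algebraMap (glueB K y) F b) := by
      rw [h2]
      exact fun h => h1 ((pos_ord_iff_mem (K := K) (F := F) (W v) hbne').1 h)
    have h4 : 0 ≤ v.ord (algebraMap (glueB K y) F b) := by
      rw [h2]
      exact Place.ord_nonneg_of_mem _ (algebraMap_mem_ofHeightOneSpectrum (W v) b)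
    omega
  · set a := Algebra.intNorm (glueA K y) (glueB K y) b with ha
    have hnorm : algebraMap (glueA K y) K⟮y⟯ a = Algebra.norm K⟮y⟯ (algebraMap (glueB K y) F b) :=
      Algebra.algebraMap_intNorm (A := glueA K y) (K := K⟮y⟯) (L := F) (B := glueB K y) b
    have hdvd : b ∣ algebraMap (glueA K y) (glueB K y) a := Algebra.dvd_algebraMap_intNorm_self _ _ b
    have haP : algebraMap (glueA K y) (glueB K y) a ∈ w0.asIdeal :=
      Ideal.mem_of_dvd _ hdvd hb0
    obtain ⟨h, hh⟩ : ∃ h : K[X], aeval y h = (a : F) := by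
      have h1 : (a : F) ∈ Algebra.adjoin K {y} := a.2
      rw [Algebra.adjoin_singleton_eq_range_aeval] at h1
      exact h1
    have hyP : glueY (K := K) (y := y) ∈ w0.asIdeal := by
      have hY0 : glueY (K := K) (y := y) ≠ 0 := by
        intro h0
        apply hy0
        rw [← algebraMap_glueY (K := K) (y := y), h0, map_zero]
      rw [← pos_ord_iff_mem (K := K) (F := F) w0 hY0, ← hw0]
      exact hv0
    have hsplit : algebraMap (glueA K y) (glueB K y) a =
        glueY (K := K) (y := y) * aeval (glueY (K := K) (y := y)) h.divX +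
          algebraMap K (glueB K y) (h.coeff 0) := by
      apply (IsFractionRing.injective (glueB K y) F)
      rw [RingHom.map_add, RingHom.map_mul, ← aeval_algebraMap_apply, algebraMap_glueY,
        ← IsScalarTower.algebraMap_apply K (glueB K y) F]
      have h1 : algebraMap (glueB K y) F (algebraMap (glueA K y) (glueB K y) a) = (a : F) := rfl
      rw [h1, ← hh]
      have h2 : aeval y h = aeval y (h.divX * X + C (h.coeff 0)) := by
        rw [Polynomial.divX_mul_X_add]
      rw [h2, map_add, map_mul, aeval_X, aeval_C, mul_comm]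
    have hc : h.coeff 0 = 0 := by
      by_contra hc
      have h1 : algebraMap K (glueB K y) (h.coeff 0) ∈ w0.asIdeal := by
        have : algebraMap K (glueB K y) (h.coeff 0) = algebraMap (glueA K y) (glueB K y) a -
            glueY (K := K) (y := y) * aeval (glueY (K := K) (y := y)) h.divX := by
          rw [hsplit]; ring
        rw [this]
        exact w0.asIdeal.sub_mem haP (w0.asIdeal.mul_mem_right _ hyP)
      have h2 : IsUnit (algebraMap K (glueB K y) (h.coeff 0)) :=
        (IsUnit.mk0 _ hc).map (algebraMap K (glueB K y))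
      exact w0.isPrime.ne_top (Ideal.eq_top_of_isUnit_mem _ h1 h2)
    refine ⟨h.divX, ?_⟩
    rw [← hnorm]
    have h1 : algebraMap K⟮y⟯ F (algebraMap (glueA K y) K⟮y⟯ a) = (a : F) := rfl
    rw [h1, ← hh]
    have h2 : aeval y h = aeval y (h.divX * X + C (h.coeff 0)) := by
      rw [Polynomial.divX_mul_X_add]
    rw [h2, hc, map_add, map_mul, aeval_X, aeval_C, mul_comm, map_zero, add_zero]

end Glue

section Corollaries

open WithZero

variable [IsAlgClosed K] [CharZero K] {y : F}

omit [IsAlgClosed K] in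
/-- (F23) for a finite parameter. -/
theorem IsFiniteParam.exists_norm_eq (hy : IsFiniteParam K y)
    (v0 : Place K F) (S : Finset (Place K F)) (hv0 : 0 < v0.ord y) (hS0 : v0 ∉ S)
    (hS : ∀ v ∈ S, 0 < v.ord y) : ∃ b : F, b ≠ 0 ∧ (∀ v ∈ S, v.ord b = 0) ∧
        ∃ g : Polynomial K, algebraMap K⟮y⟯ F (Algebra.norm K⟮y⟯ b) = y * Polynomial.aeval y g :=
  haveI := hy.finite
  glue_hF23 hy.transcendental v0 S hv0 hS0 hS

/-- **Place counting lemma**, hypothesis-free form. -/
theorem IsFiniteParam.card_zeros_eq_of_embeddings (hy : IsFiniteParam K y)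
    {E : Type*} [Field E] (w : Valuation E ℤᵐ⁰)
    {X Y : Type*} [Fintype X] [Fintype Y]
    (hcard : Fintype.card X = Module.finrank K⟮y⟯ F)
    (σ : X → F →+* E) (hσ : Function.Injective σ)
    (hK : ∀ i j (a : K), σ i (algebraMap K F a) = σ j (algebraMap K F a))
    (hσy : ∀ i j, σ i y = σ j y)
    (hwK : ∀ i (a : K), a ≠ 0 → w (σ i (algebraMap K F a)) = 1)
    (e0 : ℕ) (he0 : 0 < e0) (hwy : ∀ i, w (σ i y) = exp (-(e0 : ℤ)))
    (π : X → Y) (hπ : Function.Surjective π)
    (hinv : ∀ i j, π i = π j → ∀ f, w (σ i f) = w (σ j f))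
    (m : X → ℕ) (hm : ∀ i, m i * Nat.card {j // π j = π i} = e0)
    (hdiv : ∀ i (f : F), f ≠ 0 → ∃ k : ℤ, w (σ i f) = exp ((m i : ℤ) * k)) :
    Nat.card {v : Place K F // 0 < v.ord y} = Fintype.card Y :=
  haveI := hy.finite
  Fermat.Agent.S24.card_zeros_eq_of_embeddings y hy.finite_zeros hy.sum_zeros hy.exists_place_eq
    hy.exists_norm_eq w hcard σ hσ hK hσy hwK e0 he0 hwy π hπ hinv m hm hdiv

/-- Counting places over an elliptic point, hypothesis-free form. -/
theorem IsFiniteParam.card_zeros_eq_card_orbits (hy : IsFiniteParam K y)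
    {E : Type*} [Field E] (w : Valuation E ℤᵐ⁰)
    {G X : Type*} [Group G] [MulAction G X] [Fintype X]
    (hcard : Fintype.card X = Module.finrank K⟮y⟯ F)
    (σ : X → F →+* E) (hσ : Function.Injective σ)
    (hK : ∀ i j (a : K), σ i (algebraMap K F a) = σ j (algebraMap K F a))
    (hσy : ∀ i j, σ i y = σ j y)
    (hwK : ∀ i (a : K), a ≠ 0 → w (σ i (algebraMap K F a)) = 1)
    (p : ℕ) (hp : p.Prime) (hwy : ∀ i, w (σ i y) = exp (-(p : ℤ)))
    (s : G) (hs : ∀ x : X, s ^ p • x = x)
    (A : E →+* E) (hA : ∀ x f, A (σ x f) = σ (s • x) f) (hwA : ∀ u, w (A u) = w u)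
    (hrot : ∀ u : E, u ≠ 0 → A u = u → ∃ k : ℤ, w u = exp ((p : ℤ) * k)) :
    Nat.card {v : Place K F // 0 < v.ord y} =
      Nat.card (MulAction.orbitRel.Quotient (Subgroup.zpowers s) X) :=
  haveI := hy.finite
  Fermat.Agent.S24.card_zeros_eq_card_orbits y hy.finite_zeros hy.sum_zeros hy.exists_place_eq
    hy.exists_norm_eq w hcard σ hσ hK hσy hwK p hp hwy s hs A hA hwA hrot

/-- Counting places over an unramified point, hypothesis-free form. -/
theorem IsFiniteParam.card_zeros_eq_card (hy : IsFiniteParam K y)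
    {E : Type*} [Field E] (w : Valuation E ℤᵐ⁰)
    {X : Type*} [Fintype X]
    (hcard : Fintype.card X = Module.finrank K⟮y⟯ F)
    (σ : X → F →+* E) (hσ : Function.Injective σ)
    (hK : ∀ i j (a : K), σ i (algebraMap K F a) = σ j (algebraMap K F a))
    (hσy : ∀ i j, σ i y = σ j y)
    (hwK : ∀ i (a : K), a ≠ 0 → w (σ i (algebraMap K F a)) = 1)
    (hwy : ∀ i, w (σ i y) = exp (-(1 : ℤ))) :
    Nat.card {v : Place K F // 0 < v.ord y} = Fintype.card X :=
  haveI := hy.finite
  Fermat.Agent.S24.card_zeros_eq_card y hy.finite_zeros hy.sum_zeros hy.exists_place_eq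
    hy.exists_norm_eq w hcard σ hσ hK hσy hwK hwy

end Corollaries

end Fermat.Agent.S24
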