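import Fermat.Agent.S24.FF.Param

set_option autoImplicit false
set_option linter.style.haveILetI false

open AlgebraicCurve IsDedekindDomain IntermediateField
open scoped IntermediateField.algebraAdjoinAdjoin

namespace Fermat.Agent.S24

variable {K : Type*} {F : Type*} [Field K] [Field F] [Algebra K F] {y : F}

namespace IsFiniteParam

variable [CharZero K]

theorem ord_place_eq_zero (hy : IsFiniteParam K y) (w : HeightOneSpectrum (intRing K y))
    {b : intRing K y} (hb : b ∉ w.asIdeal) : (hy.place w).ord (b : F) = 0 := by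
  haveI := hy.isDedekindDomain
  haveI := hy.isFractionRing
  haveI := isScalarTower_intRing (K := K) (y := y)
  have hb0 : b ≠ 0 := fun h => hb (h ▸ w.asIdeal.zero_mem)
  have h1 := pos_ord_iff_mem (K := K) (F := F) w hb0
  have h2 := Place.ord_nonneg_of_mem _ (algebraMap_mem_ofHeightOneSpectrum (K := K) (F := F) w b)
  have h3 : ¬ 0 < (Place.ofHeightOneSpectrum (K := K) w).ord (algebraMap (intRing K y) F b) :=
    fun h => hb (h1.1 h)
  exact le_antisymm (not_lt.1 h3) h2

/-- (F2+F3) avoidance with control of the norm. -/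
theorem exists_norm_avoid' (hy : IsFiniteParam K y) (v0 : Place K F) (S : Finset (Place K F))
    (hv0 : 0 < v0.ord y) (hS : v0 ∉ S) (hSy : ∀ v ∈ S, 0 < v.ord y) :
    ∃ b : F, b ≠ 0 ∧ (∀ v ∈ S, v.ord b = 0) ∧
      ∃ g : Polynomial K, algebraMap K⟮y⟯ F (Algebra.norm K⟮y⟯ b) = y * Polynomial.aeval y g := by
  classical
  haveI := hy.isPrincipalIdealRing
  haveI := hy.finite
  haveI := hy.isDedekindDomain
  haveI := hy.isFractionRing
  haveI := hy.moduleFinite
  haveI : IsIntegralClosure (intRing K y) (polyRing K y) F := integralClosure.isIntegralClosure _ _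
  haveI : IsScalarTower (polyRing K y) (intRing K y) F :=
    IsScalarTower.of_algebraMap_eq (fun _ => rfl)
  have hz := hy.zeros_eq_image
  obtain ⟨w0, hw0, rfl⟩ : v0 ∈ hy.place '' {w | gen' K y ∈ w.asIdeal} := hz ▸ hv0
  obtain ⟨b, hb0, hb, a', ha'⟩ := exists_norm_avoid (A := polyRing K y) (F := F) K⟮y⟯ (B := intRing K y) (gen K y)
    hy.isMaximal_span_gen (fun h => hy.ne_zero (congrArg Subtype.val h)) w0 hw0
    (hy.finite_primes.toFinset.filter (fun w => hy.place w ∈ S))
    (by simp [hS])
  refine ⟨(b : F), fun h => hb0 (Subtype.ext h), ?_, ?_⟩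
  · intro v hv
    obtain ⟨w, hw, rfl⟩ : v ∈ hy.place '' {w | gen' K y ∈ w.asIdeal} := hz ▸ (hSy v hv)
    refine hy.ord_place_eq_zero w (hb w ?_)
    rw [Finset.mem_filter, Set.Finite.mem_toFinset]
    exact ⟨hw, hv⟩
  · obtain ⟨g, hg⟩ : (a' : F) ∈ (Polynomial.aeval (R := K) y).range := by
      rw [← Algebra.adjoin_singleton_eq_range_aeval]
      exact a'.2
    refine ⟨g, ?_⟩
    have h1 : Algebra.norm K⟮y⟯ (b : F) = algebraMap (polyRing K y) K⟮y⟯ (gen K y * a') := ha'
    rw [h1, ← IsScalarTower.algebraMap_apply]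
    have hg' : Polynomial.aeval y g = (a' : F) := hg
    rw [hg']
    rfl

omit [CharZero K] in
theorem adjoin_sub_const (y : F) (c : K) : K⟮y - algebraMap K F c⟯ = K⟮y⟯ := by
  apply le_antisymm
  · rw [adjoin_simple_le_iff]
    exact sub_mem (mem_adjoin_simple_self K y) (IntermediateField.algebraMap_mem _ c)
  · rw [adjoin_simple_le_iff]
    have h := add_mem (mem_adjoin_simple_self K (y - algebraMap K F c))
      (IntermediateField.algebraMap_mem K⟮y - algebraMap K F c⟯ c)
    rwa [sub_add_cancel] at h

omit [CharZero K] in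
theorem adjoin_inv (y : F) : K⟮y⁻¹⟯ = K⟮y⟯ := by
  apply le_antisymm
  · rw [adjoin_simple_le_iff]
    exact inv_mem (mem_adjoin_simple_self K y)
  · rw [adjoin_simple_le_iff]
    have h := inv_mem (mem_adjoin_simple_self K y⁻¹)
    rwa [inv_inv] at h

omit [CharZero K] in
theorem sub_const (hy : IsFiniteParam K y) (c : K) : IsFiniteParam K (y - algebraMap K F c) where
  transcendental := by
    intro h
    apply hy.transcendental
    have : y = (y - algebraMap K F c) + algebraMap K F c := by ring
    rw [this]
    exact h.add (isAlgebraic_algebraMap c)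
  finite := by
    rw [adjoin_sub_const]
    exact hy.finite

omit [CharZero K] in
theorem inv (hy : IsFiniteParam K y) : IsFiniteParam K y⁻¹ where
  transcendental := by
    intro h
    apply hy.transcendental
    have : y = (y⁻¹)⁻¹ := (inv_inv y).symm
    rw [this]
    exact h.inv
  finite := by
    rw [adjoin_inv]
    exact hy.finite

omit [CharZero K] in
theorem finrank_sub_const (y : F) (c : K) :
    Module.finrank K⟮y - algebraMap K F c⟯ F = Module.finrank K⟮y⟯ F := by
  rw [adjoin_sub_const]

omit [CharZero K] in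
theorem finrank_inv (y : F) : Module.finrank K⟮y⁻¹⟯ F = Module.finrank K⟮y⟯ F := by
  rw [adjoin_inv]

/-- the fibre of `y` over `c` is finite. -/
theorem finite_fibre (hy : IsFiniteParam K y) (c : K) :
    {v : Place K F | 0 < v.ord (y - algebraMap K F c)}.Finite :=
  (hy.sub_const c).finite_zeros

theorem sum_fibre [IsAlgClosed K] (hy : IsFiniteParam K y) (c : K) :
    ∑ v ∈ (hy.finite_fibre c).toFinset, v.ord (y - algebraMap K F c) =
      (Module.finrank K⟮y⟯ F : ℤ) := by
  rw [← finrank_sub_const y c]
  exact (hy.sub_const c).sum_zeros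

theorem finite_poles (hy : IsFiniteParam K y) : {v : Place K F | v.ord y < 0}.Finite := by
  have := hy.inv.finite_zeros
  simpa [Place.ord_inv] using this

theorem sum_poles [IsAlgClosed K] (hy : IsFiniteParam K y) :
    ∑ v ∈ hy.finite_poles.toFinset, v.ord y = -(Module.finrank K⟮y⟯ F : ℤ) := by
  rw [← finrank_inv y, ← hy.inv.sum_zeros, ← Finset.sum_neg_distrib]
  refine Finset.sum_congr ?_ ?_
  · ext v
    simp [Place.ord_inv]
  · intro v _
    rw [Place.ord_inv, neg_neg]

/-- every place comes from a prime of the integral closure of `K[y]` or of `K[1/y]`. -/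
theorem exists_value [IsAlgClosed K] (hy : IsFiniteParam K y) (v : Place K F) {f : F}
    (hf : f ∈ v.toValuationSubring) :
    ∃ c : K, f = algebraMap K F c ∨ 0 < v.ord (f - algebraMap K F c) := by
  have key : ∀ {z : F} (hz : IsFiniteParam K z), z ∈ v.toValuationSubring →
      ∃ c : K, f = algebraMap K F c ∨ 0 < v.ord (f - algebraMap K F c) := by
    intro z hz hzv
    haveI := hz.isDedekindDomain
    haveI := hz.isFractionRing
    haveI := isScalarTower_intRing (K := K) (y := z)
    haveI := hz.finiteType_intRing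
    obtain ⟨w, rfl⟩ := hz.exists_eq_place v hzv
    exact exists_value_ofHeightOneSpectrum (K := K) w hf
  rcases v.toValuationSubring.mem_or_inv_mem y with h | h
  · exact key hy h
  · exact key hy.inv h

theorem bijective_algebraMap_residueField [IsAlgClosed K] (hy : IsFiniteParam K y)
    (v : Place K F) : Function.Bijective (algebraMap K v.ResidueField) := by
  refine ⟨(algebraMap K v.ResidueField).injective, ?_⟩
  intro x
  obtain ⟨f, rfl⟩ := IsLocalRing.residue_surjective x
  obtain ⟨c, hc⟩ := hy.exists_value v f.2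
  refine ⟨c, ?_⟩
  have h1 : algebraMap K v.ResidueField c =
      IsLocalRing.residue _ (algebraMap K v.toValuationSubring c) := rfl
  rw [h1]
  rcases hc with hc | hc
  · congr 1
    exact Subtype.ext hc.symm
  · symm
    rw [← sub_eq_zero, ← map_sub, IsLocalRing.residue_eq_zero_iff, IsLocalRing.mem_maximalIdeal,
      mem_nonunits_iff]
    intro hu
    have := v.ord_coe_unit hu.unit
    rw [IsUnit.unit_spec] at this
    have h2 : ((f - algebraMap K v.toValuationSubring c : v.toValuationSubring) : F) =
        (f : F) - algebraMap K F c := rfl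
    rw [h2] at this
    omega

theorem deg_eq_one [IsAlgClosed K] (hy : IsFiniteParam K y) (v : Place K F) : v.deg = 1 := by
  unfold Place.deg
  rw [finrank_eq_one_iff_of_nonzero' (1 : v.ResidueField) one_ne_zero]
  intro x
  obtain ⟨c, rfl⟩ := (hy.bijective_algebraMap_residueField v).2 x
  exact ⟨c, by rw [Algebra.smul_def, mul_one]⟩

end IsFiniteParam

end Fermat.Agent.S24
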