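import Mathlib
import Fermat.Prelude.Def_AlgebraicCurve_DivisorClassGroup

set_option autoImplicit false

open AlgebraicCurve IsDedekindDomain

namespace Fermat.Agent.S24

variable {K F : Type*} [Field K] [Field F] [Algebra K F]

section PlaceBasic

variable (v : Place K F)

theorem Place.exists_uniformizer : ∃ t : F, t ≠ 0 ∧ t ∈ v.toValuationSubring ∧ v.ord t = 1 := by
  obtain ⟨π, hπ⟩ := IsDiscreteValuationRing.exists_irreducible v.toValuationSubring
  refine ⟨π, ?_, π.2, v.ord_coe_irreducible hπ⟩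
  simpa [ne_eq, ZeroMemClass.coe_eq_zero] using hπ.ne_zero

theorem Place.mem_iff_ord_nonneg {f : F} (hf : f ≠ 0) :
    f ∈ v.toValuationSubring ↔ 0 ≤ v.ord f := by
  obtain ⟨π, hπ⟩ := IsDiscreteValuationRing.exists_irreducible v.toValuationSubring
  obtain ⟨u, hu⟩ := v.exists_unit_mul_zpow hf hπ
  have hπF : (π : F) ≠ 0 := by
    simpa [ne_eq, ZeroMemClass.coe_eq_zero] using hπ.ne_zero
  constructor
  · intro hmem
    by_contra hlt
    push Not at hlt
    obtain ⟨k, hk⟩ : ∃ k : ℕ, v.ord f = -((k : ℤ) + 1) := ⟨(-(v.ord f) - 1).toNat, by omega⟩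
    have h1 : ((u : v.toValuationSubring) : F) = (π : F) ^ (k + 1) * f := by
      conv_rhs => rw [hu, hk, zpow_neg]
      have : ((π : F) ^ ((k : ℤ) + 1)) = (π : F) ^ (k + 1) := by
        rw [← zpow_natCast]; push_cast; rfl
      rw [this]
      field_simp
    have h2 : (u : v.toValuationSubring) = π * (π ^ k * ⟨f, hmem⟩) := by
      apply Subtype.ext
      rw [h1]
      push_cast
      ring
    exact hπ.not_isUnit (isUnit_of_mul_isUnit_left (h2 ▸ u.isUnit))
  · intro h
    rw [hu]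
    obtain ⟨k, hk⟩ := Int.eq_ofNat_of_zero_le h
    rw [hk, zpow_natCast]
    exact v.toValuationSubring.mul_mem _ _ (u : v.toValuationSubring).2
      (v.toValuationSubring.pow_mem π.2 k)

theorem Place.ord_nonneg_of_mem {f : F} (hf : f ∈ v.toValuationSubring) : 0 ≤ v.ord f := by
  rcases eq_or_ne f 0 with rfl | h0
  · simp
  · exact (Place.mem_iff_ord_nonneg v h0).1 hf

/-- `ord` of constants vanishes. -/
theorem Place.ord_algebraMap (a : K) : v.ord (algebraMap K F a) = 0 := by
  rcases eq_or_ne a 0 with rfl | ha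
  · simp
  have h0 : algebraMap K F a ≠ 0 := by simpa using ha
  have h1 := (Place.mem_iff_ord_nonneg v h0).1 (v.algebraMap_mem' a)
  have h2 := (Place.mem_iff_ord_nonneg v (inv_ne_zero h0)).1
    (by rw [← map_inv₀]; exact v.algebraMap_mem' a⁻¹)
  rw [v.ord_inv] at h2
  omega

theorem Place.ord_add_ge {f g : F} (hf : f ≠ 0) (hg : g ≠ 0) (hfg : f + g ≠ 0) :
    min (v.ord f) (v.ord g) ≤ v.ord (f + g) := by
  wlog h : v.ord f ≤ v.ord g generalizing f g
  · rw [min_comm, add_comm]
    exact this hg hf (by rwa [add_comm]) (by omega)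
  rw [min_eq_left h]
  have h1 : g / f ∈ v.toValuationSubring := by
    rw [Place.mem_iff_ord_nonneg v (div_ne_zero hg hf), div_eq_mul_inv,
      v.ord_mul hg (inv_ne_zero hf), v.ord_inv]
    omega
  have h2 : 1 + g / f ∈ v.toValuationSubring :=
    v.toValuationSubring.add_mem _ _ v.toValuationSubring.one_mem h1
  have h3 : f + g = f * (1 + g / f) := by field_simp
  have h4 : 1 + g / f ≠ 0 := by
    intro h0
    rw [h0, mul_zero] at h3
    exact hfg h3
  rw [h3, v.ord_mul hf h4]
  have := (Place.mem_iff_ord_nonneg v h4).1 h2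
  omega

theorem Place.ord_add_eq_of_lt {f g : F} (hf : f ≠ 0) (hg : g ≠ 0) (h : v.ord f < v.ord g) :
    v.ord (f + g) = v.ord f := by
  have hfg : f + g ≠ 0 := by
    intro h0
    have : g = -1 * f := by linear_combination h0
    rw [this, v.ord_mul (by simp) hf] at h
    have h1 : v.ord (-1 : F) = 0 := by
      have := Place.ord_algebraMap v (-1 : K)
      simpa using this
    omega
  have h1 := Place.ord_add_ge v hf hg hfg
  rw [min_eq_left h.le] at h1
  by_contra hne
  have h2 : v.ord f < v.ord (f + g) := lt_of_le_of_ne h1 (Ne.symm hne)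
  have hng : -g ≠ 0 := neg_ne_zero.mpr hg
  have h3 := Place.ord_add_ge v hfg hng (by simpa using hf)
  have h4 : v.ord (-g) = v.ord g := by
    have h1 : v.ord (-1 : F) = 0 := by
      have := Place.ord_algebraMap v (-1 : K)
      simpa using this
    rw [show -g = -1 * g by ring, v.ord_mul (by simp) hg, h1, zero_add]
  rw [h4, add_neg_cancel_right] at h3
  have := min_le_iff.1 h3
  omega

theorem Place.ord_neg (f : F) : v.ord (-f) = v.ord f := by
  rcases eq_or_ne f 0 with rfl | hf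
  · simp
  have h1 : v.ord (-1 : F) = 0 := by
    have := Place.ord_algebraMap v (-1 : K)
    simpa using this
  rw [show -f = -1 * f by ring, v.ord_mul (by simp) hf, h1, zero_add]

theorem Place.ord_pow (f : F) (n : ℕ) : v.ord (f ^ n) = n * v.ord f := by
  rw [← zpow_natCast, v.ord_zpow]

/-- A multiplicative integer-valued function with the same nonnegativity locus as `v.ord` is a
positive multiple of `v.ord`. -/
theorem Place.exists_mul_ord_eq (ν : F → ℤ)
    (hmul : ∀ f g : F, f ≠ 0 → g ≠ 0 → ν (f * g) = ν f + ν g)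
    (hmem : ∀ f : F, f ≠ 0 → (0 ≤ ν f ↔ f ∈ v.toValuationSubring)) :
    ∃ m : ℤ, 0 < m ∧ ∀ f : F, f ≠ 0 → ν f = m * v.ord f := by
  obtain ⟨t, ht0, htm, ht⟩ := Place.exists_uniformizer v
  have hone : ν 1 = 0 := by
    have := hmul 1 1 one_ne_zero one_ne_zero
    rw [one_mul] at this
    omega
  have hinv : ∀ f : F, f ≠ 0 → ν f⁻¹ = - ν f := by
    intro f hf
    have := hmul f f⁻¹ hf (inv_ne_zero hf)
    rw [mul_inv_cancel₀ hf, hone] at this
    omega
  have hzpow : ∀ (f : F), f ≠ 0 → ∀ n : ℤ, ν (f ^ n) = n * ν f := by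
    intro f hf n
    induction n using Int.induction_on with
    | zero => simp [hone]
    | succ n ih =>
      rw [zpow_add_one₀ hf, hmul _ _ (zpow_ne_zero _ hf) hf, ih]; ring
    | pred n ih =>
      rw [zpow_sub_one₀ hf, hmul _ _ (zpow_ne_zero _ hf) (inv_ne_zero hf), ih, hinv f hf]; ring
  have hunit : ∀ f : F, f ≠ 0 → v.ord f = 0 → ν f = 0 := by
    intro f hf h0
    have h1 := (hmem f hf).2 ((Place.mem_iff_ord_nonneg v hf).2 h0.ge)
    have h2 := (hmem f⁻¹ (inv_ne_zero hf)).2
      ((Place.mem_iff_ord_nonneg v (inv_ne_zero hf)).2 (by rw [v.ord_inv, h0]; simp))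
    rw [hinv f hf] at h2
    omega
  refine ⟨ν t, ?_, ?_⟩
  · have h1 := (hmem t ht0).2 htm
    rcases h1.lt_or_eq with h | h
    · exact h
    · exfalso
      have h2 : 0 ≤ ν t⁻¹ := by rw [hinv t ht0, ← h]; simp
      have h3 := (Place.mem_iff_ord_nonneg v (inv_ne_zero ht0)).1 ((hmem _ (inv_ne_zero ht0)).1 h2)
      rw [v.ord_inv, ht] at h3
      omega
  · intro f hf
    have h1 : v.ord (f * t ^ (-(v.ord f))) = 0 := by
      rw [v.ord_mul hf (zpow_ne_zero _ ht0), v.ord_zpow, ht]; ring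
    have h2 := hunit _ (mul_ne_zero hf (zpow_ne_zero _ ht0)) h1
    rw [hmul _ _ hf (zpow_ne_zero _ ht0), hzpow t ht0] at h2
    linarith

theorem Place.ord_eq_of_hom (ν : F → ℤ)
    (hmul : ∀ f g : F, f ≠ 0 → g ≠ 0 → ν (f * g) = ν f + ν g)
    (hmem : ∀ f : F, f ≠ 0 → (0 ≤ ν f ↔ f ∈ v.toValuationSubring))
    (hsurj : ∃ f : F, f ≠ 0 ∧ ν f = 1) :
    ∀ f : F, f ≠ 0 → v.ord f = ν f := by
  obtain ⟨m, hm, h⟩ := Place.exists_mul_ord_eq v ν hmul hmem
  obtain ⟨g, hg0, hg⟩ := hsurj
  have h1 := h g hg0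
  rw [hg] at h1
  have hm1 : m = 1 := by
    have : m ∣ 1 := ⟨_, h1⟩
    exact Int.eq_one_of_dvd_one hm.le this
  intro f hf
  rw [h f hf, hm1, one_mul]

end PlaceBasic

end Fermat.Agent.S24
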