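import Fermat.Agent.S24.FF.Basic

set_option autoImplicit false
set_option linter.style.haveILetI false

open AlgebraicCurve IsDedekindDomain

namespace Fermat.Agent.S24

variable {K F : Type*} [Field K] [Field F] [Algebra K F]

section Dedekind

variable {R : Type*} [CommRing R] [IsDedekindDomain R] [Algebra R F] [IsFractionRing R F]
  [Algebra K R] [IsScalarTower K R F]

theorem ord_ofHeightOneSpectrum (w : HeightOneSpectrum R) {f : F} (hf : f ≠ 0) :
    (Place.ofHeightOneSpectrum (K := K) w).ord f = -(WithZero.log (w.valuation F f)) := by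
  refine Place.ord_eq_of_hom _ (fun f => -(WithZero.log (w.valuation F f))) ?_ ?_ ?_ f hf
  · intro f g hf hg
    simp only [map_mul]
    rw [WithZero.log_mul ((Valuation.ne_zero_iff _).mpr hf) ((Valuation.ne_zero_iff _).mpr hg)]
    ring
  · intro f hf
    rw [Place.ofHeightOneSpectrum_toValuationSubring, Valuation.mem_valuationSubring_iff]
    rw [neg_nonneg, WithZero.log_le_iff_le_exp ((Valuation.ne_zero_iff _).mpr hf),
      WithZero.exp_zero]
  · obtain ⟨π, hπ⟩ := w.valuation_exists_uniformizer F
    refine ⟨π, ?_, ?_⟩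
    · intro h0
      rw [h0, map_zero] at hπ
      exact WithZero.exp_ne_zero hπ.symm
    · simp [hπ]

theorem ofHeightOneSpectrum_injective :
    Function.Injective (Place.ofHeightOneSpectrum (K := K) (F := F) (R := R)) := by
  intro w w' h
  have h1 : (w.valuation F).valuationSubring = (w'.valuation F).valuationSubring :=
    congrArg Place.toValuationSubring h
  exact HeightOneSpectrum.eq_of_valuation_isEquiv_valuation
    ((Valuation.isEquiv_iff_valuationSubring _ _).2 h1)

omit [Algebra K F] [Algebra K R] [IsScalarTower K R F] in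
/-- Every proper valuation subring containing the Dedekind domain `R` comes from a prime of `R`. -/
theorem exists_valuationSubring_eq (O : ValuationSubring F) (hO : O ≠ ⊤)
    (hR : ∀ r : R, algebraMap R F r ∈ O) :
    ∃ w : HeightOneSpectrum R, O = (w.valuation F).valuationSubring := by
  let φ : R →+* O := (algebraMap R F).codRestrict O.toSubring hR
  have hφ : ∀ r, ((φ r : O) : F) = algebraMap R F r := fun r => rfl
  let P : Ideal R := (IsLocalRing.maximalIdeal O).comap φ
  have hPprime : P.IsPrime := Ideal.comap_isPrime φ _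
  have hunit : ∀ r : R, r ∉ P → (algebraMap R F r)⁻¹ ∈ O := by
    intro r hr
    have h1 : IsUnit (φ r) := by
      by_contra h
      exact hr ((IsLocalRing.mem_maximalIdeal _).2 h)
    obtain ⟨u, hu⟩ := h1
    have h2 : (algebraMap R F r)⁻¹ = ((u⁻¹ : (O)ˣ) : O) := by
      rw [← hφ, ← hu]
      have h3 : ((u : O) : F) * ((u⁻¹ : (O)ˣ) : O) = 1 := by
        rw [← MulMemClass.coe_mul, Units.mul_inv]; rfl
      exact inv_eq_of_mul_eq_one_right h3
    rw [h2]
    exact Subtype.property _
  have hPbot : P ≠ ⊥ := by
    intro hbot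
    apply hO
    refine SetLike.ext fun x => ⟨fun _ => ValuationSubring.mem_top x, fun _ => ?_⟩
    obtain ⟨a, s, hs, rfl⟩ := IsFractionRing.div_surjective (A := R) x
    have hs0 : s ∉ P := by
      rw [hbot, Ideal.mem_bot]
      exact nonZeroDivisors.ne_zero hs
    rw [div_eq_mul_inv]
    exact O.mul_mem _ _ (hR a) (hunit s hs0)
  let w : HeightOneSpectrum R := ⟨P, hPprime, hPbot⟩
  refine ⟨w, ?_⟩
  symm
  have hle : (w.valuation F).valuationSubring ≤ O := by
    intro x hx
    obtain ⟨n, d, hnd⟩ := w.exists_primeCompl_mul_eq_of_integer x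
      ((Valuation.mem_valuationSubring_iff _ _).1 hx)
    have hd0 : algebraMap R F d ≠ 0 := by
      intro h0
      have : (d : R) = 0 := (IsFractionRing.injective R F) (by rw [h0, map_zero])
      exact d.2 (by rw [this]; exact P.zero_mem)
    have : x = algebraMap R F n * (algebraMap R F d)⁻¹ := by
      rw [← hnd]; field_simp
    rw [this]
    exact O.mul_mem _ _ (hR n) (hunit d d.2)
  have : Ring.KrullDimLE 1 (w.valuation F).valuationSubring := by
    rw [← HeightOneSpectrum.valuationSubringAtPrime_eq_valuationSubring]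
    infer_instance
  exact ValuationSubring.eq_of_le_of_ne_top _ hle hO

/-- Every place whose valuation ring contains the Dedekind domain `R` comes from a prime of `R`. -/
theorem exists_eq_ofHeightOneSpectrum (v : Place K F)
    (hR : ∀ r : R, algebraMap R F r ∈ v.toValuationSubring) :
    ∃ w : HeightOneSpectrum R, v = Place.ofHeightOneSpectrum w := by
  obtain ⟨w, hw⟩ := exists_valuationSubring_eq v.toValuationSubring v.ne_top' hR
  exact ⟨w, Place.ext hw⟩

theorem surjective_algebraMap_quotient [IsAlgClosed K] [Algebra.FiniteType K R]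
    (w : HeightOneSpectrum R) : Function.Surjective (algebraMap K (R ⧸ w.asIdeal)) := by
  haveI : w.asIdeal.IsMaximal := w.isMaximal
  letI : Field (R ⧸ w.asIdeal) := Ideal.Quotient.field _
  haveI : Algebra.FiniteType K (R ⧸ w.asIdeal) :=
    Algebra.FiniteType.of_surjective (Ideal.Quotient.mkₐ K w.asIdeal) (Ideal.Quotient.mkₐ_surjective K _)
  haveI : Module.Finite K (R ⧸ w.asIdeal) := finite_of_finite_type_of_isJacobsonRing K _
  exact IsAlgClosed.algebraMap_bijective_of_isIntegral.2

omit [IsDedekindDomain R] in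
theorem algebraMap_ne_zero' {r : R} (hr : r ≠ 0) : algebraMap R F r ≠ 0 := by
  intro h
  exact hr ((IsFractionRing.injective R F) (by rw [h, map_zero]))

theorem pos_ord_iff_mem (w : HeightOneSpectrum R) {r : R} (hr : r ≠ 0) :
    0 < (Place.ofHeightOneSpectrum (K := K) w).ord (algebraMap R F r) ↔ r ∈ w.asIdeal := by
  have h0 : algebraMap R F r ≠ 0 := algebraMap_ne_zero' hr
  rw [ord_ofHeightOneSpectrum w h0, neg_pos,
    WithZero.log_lt_iff_lt_exp ((Valuation.ne_zero_iff _).mpr h0), WithZero.exp_zero,
    HeightOneSpectrum.valuation_lt_one_iff_mem]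

theorem algebraMap_mem_ofHeightOneSpectrum (w : HeightOneSpectrum R) (r : R) :
    algebraMap R F r ∈ (Place.ofHeightOneSpectrum (K := K) w).toValuationSubring := by
  rw [Place.ofHeightOneSpectrum_toValuationSubring, Valuation.mem_valuationSubring_iff]
  exact w.valuation_le_one r

/-- value of a function at a place -/
theorem exists_value_ofHeightOneSpectrum [IsAlgClosed K] [Algebra.FiniteType K R]
    (w : HeightOneSpectrum R) {f : F}
    (hf : f ∈ (Place.ofHeightOneSpectrum (K := K) w).toValuationSubring) :
    ∃ c : K, f = algebraMap K F c ∨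
      0 < (Place.ofHeightOneSpectrum (K := K) w).ord (f - algebraMap K F c) := by
  set v := Place.ofHeightOneSpectrum (K := K) (F := F) w with hv
  obtain ⟨n, d, hnd⟩ := w.exists_primeCompl_mul_eq_of_integer f
      ((Valuation.mem_valuationSubring_iff _ _).1 hf)
  obtain ⟨cn, hcn⟩ := surjective_algebraMap_quotient (K := K) w (Ideal.Quotient.mk _ n)
  obtain ⟨cd, hcd⟩ := surjective_algebraMap_quotient (K := K) w (Ideal.Quotient.mk _ (d : R))
  have hcn' : n - algebraMap K R cn ∈ w.asIdeal := by
    rw [← Ideal.Quotient.eq, ← hcn]; rfl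
  have hcd' : (d : R) - algebraMap K R cd ∈ w.asIdeal := by
    rw [← Ideal.Quotient.eq, ← hcd]; rfl
  have hd : (d : R) ∉ w.asIdeal := d.2
  have hd0 : (d : R) ≠ 0 := fun h => hd (h ▸ w.asIdeal.zero_mem)
  have hcd0 : cd ≠ 0 := by
    rintro rfl
    rw [map_zero, sub_zero] at hcd'
    exact hd hcd'
  set c := cn / cd with hc
  set r : R := n - algebraMap K R c * d with hr
  have hrw : r ∈ w.asIdeal := by
    have : r = (n - algebraMap K R cn) - algebraMap K R c * ((d : R) - algebraMap K R cd) := by
      have h1 : algebraMap K R c * algebraMap K R cd = algebraMap K R cn := by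
        rw [← map_mul, hc, div_mul_cancel₀ _ hcd0]
      rw [hr]; linear_combination (-1 : R) * h1
    rw [this]
    exact w.asIdeal.sub_mem hcn' (w.asIdeal.mul_mem_left _ hcd')
  have hdF : algebraMap R F d ≠ 0 := algebraMap_ne_zero' hd0
  have hfr : f - algebraMap K F c = algebraMap R F r * (algebraMap R F d)⁻¹ := by
    rw [hr, map_sub, map_mul, ← hnd, ← IsScalarTower.algebraMap_apply K R F]
    field_simp
  refine ⟨c, ?_⟩
  rcases eq_or_ne r 0 with h0 | h0
  · left
    rw [h0, map_zero, zero_mul] at hfr
    exact sub_eq_zero.1 hfr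
  · right
    rw [hfr, v.ord_mul (algebraMap_ne_zero' h0) (inv_ne_zero hdF), v.ord_inv]
    have h1 : 0 < v.ord (algebraMap R F r) := (pos_ord_iff_mem (K := K) (F := F) w h0).2 hrw
    have h2 : ¬ 0 < v.ord (algebraMap R F d) := fun h => hd ((pos_ord_iff_mem (K := K) (F := F) w hd0).1 h)
    have h3 : 0 ≤ v.ord (algebraMap R F d) :=
      Place.ord_nonneg_of_mem v (algebraMap_mem_ofHeightOneSpectrum w _)
    omega

end Dedekind

end Fermat.Agent.S24
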