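import Fermat.Agent.S24.FF.Dedekind

set_option autoImplicit false
set_option linter.style.haveILetI false
set_option linter.deprecated false

open AlgebraicCurve IsDedekindDomain IntermediateField

namespace Fermat.Agent.S24

section Sum

variable {K F : Type*} [Field K] [Field F] [Algebra K F] 
variable {A : Type*} (k : Type*) {B : Type*} [CommRing A] [IsDedekindDomain A] [Field k] [Algebra A k]
  [IsFractionRing A k]
  [CommRing B] [IsDedekindDomain B] [Algebra A B] [Algebra B F] [IsFractionRing B F] [Algebra k F]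
  [Algebra A F]
  [IsScalarTower A B F] [IsScalarTower A k F] [Module.Finite A B]
  [Algebra K A] [Algebra K B] [IsScalarTower K A B] [IsScalarTower K B F] 

theorem ord_ofHeightOneSpectrum_algebraMap (w : HeightOneSpectrum B) {b : B} (hb : b ≠ 0) :
    (Place.ofHeightOneSpectrum (K := K) w).ord (algebraMap B F b) =
      (Multiset.count w.asIdeal (UniqueFactorizationMonoid.normalizedFactors (Ideal.span {b})) : ℤ) := by
  rw [ord_ofHeightOneSpectrum w (algebraMap_ne_zero' hb), HeightOneSpectrum.valuation_of_algebraMap,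
    HeightOneSpectrum.intValuation_if_neg _ hb, WithZero.log_exp, neg_neg,
    Ideal.count_associates_factors_eq (by simpa using hb) w.isPrime w.ne_bot]

theorem sum_ord_eq_finrank [IsAlgClosed K] [Algebra.FiniteType K B]
    (a : A) (hmax : (Ideal.span {a}).IsMaximal) (ha0 : a ≠ 0)
    (S : Finset (HeightOneSpectrum B)) (hS : ∀ w, w ∈ S ↔ algebraMap A B a ∈ w.asIdeal) :
    ∑ w ∈ S, (Place.ofHeightOneSpectrum (K := K) w).ord (algebraMap A F a) =
      (Module.finrank k F : ℤ) := by
  classical
  have hp0 : Ideal.span {a} ≠ ⊥ := by simpa using ha0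
  have hinj : Function.Injective (algebraMap A B) :=
    algebraMap_injective_of_field_isFractionRing A B k F
  have hb0 : algebraMap A B a ≠ 0 := by
    intro h
    exact ha0 (hinj (by rw [h, map_zero]))
  haveI : FaithfulSMul A B := (faithfulSMul_iff_algebraMap_injective A B).mpr hinj
  haveI : Module.IsTorsionFree A B := inferInstance
  have hmap : Ideal.map (algebraMap A B) (Ideal.span {a}) = Ideal.span {algebraMap A B a} := by
    rw [Ideal.map_span, Set.image_singleton]
  have hover : ∀ w : HeightOneSpectrum B, algebraMap A B a ∈ w.asIdeal →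
      w.asIdeal.LiesOver (Ideal.span {a}) := by
    intro w hw
    refine ⟨hmax.eq_of_le (Ideal.comap_ne_top _ w.isPrime.ne_top) ?_⟩
    rw [Ideal.span_singleton_le_iff_mem]
    exact hw
  have h := Ideal.sum_ramification_inertia B k F (p := Ideal.span {a}) hp0
  rw [← h]
  push_cast
  refine Finset.sum_bij (fun w _ => w.asIdeal) ?_ ?_ ?_ ?_
  · intro w hw
    rw [IsDedekindDomain.mem_primesOverFinset_iff hp0]
    exact ⟨w.isPrime, hover w ((hS w).1 hw)⟩
  · intro w _ w' _ h
    exact HeightOneSpectrum.ext h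
  · intro P hP
    rw [IsDedekindDomain.mem_primesOverFinset_iff hp0] at hP
    obtain ⟨hP1, hP2⟩ := hP
    have haP : algebraMap A B a ∈ P := by
      have : a ∈ P.under A := by
        rw [← hP2.over]
        exact Ideal.mem_span_singleton_self a
      exact this
    have hPbot : P ≠ ⊥ := by
      rintro rfl
      exact hb0 (by simpa using haP)
    exact ⟨⟨P, hP1, hPbot⟩, (hS _).2 haP, rfl⟩
  · intro w hw
    have hw' := (hS w).1 hw
    haveI := hover w hw'
    have h1 : Ideal.inertiaDeg' (Ideal.span {a}) w.asIdeal = 1 := by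
      rw [Ideal.inertiaDeg'_algebraMap]
      letI : Field (A ⧸ Ideal.span {a}) := Ideal.Quotient.field _
      haveI : w.asIdeal.IsMaximal := w.isMaximal
      rw [finrank_eq_one_iff_of_nonzero' (1 : B ⧸ w.asIdeal) one_ne_zero]
      intro x
      obtain ⟨c, rfl⟩ := surjective_algebraMap_quotient (K := K) w x
      refine ⟨algebraMap K _ c, ?_⟩
      rw [Algebra.smul_def, mul_one]
      have e1 : algebraMap K (A ⧸ Ideal.span {a}) c = Ideal.Quotient.mk _ (algebraMap K A c) := rfl
      have e2 : algebraMap K (B ⧸ w.asIdeal) c = Ideal.Quotient.mk _ (algebraMap K B c) := rfl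
      rw [e1, e2, Ideal.Quotient.algebraMap_mk_of_liesOver, ← IsScalarTower.algebraMap_apply]
    rw [h1, IsScalarTower.algebraMap_apply A B F, ord_ofHeightOneSpectrum_algebraMap w hb0,
      Ideal.IsDedekindDomain.ramificationIdx'_eq_normalizedFactors_count (by rw [hmap]; simpa using hb0)
        w.isPrime w.ne_bot, hmap]
    simp

omit [IsFractionRing B F] in
theorem exists_norm_avoid [IsIntegralClosure B A F] [FiniteDimensional k F]
    (a : A) (hmax : (Ideal.span {a}).IsMaximal) (ha0 : a ≠ 0)
    (w0 : HeightOneSpectrum B) (ha : algebraMap A B a ∈ w0.asIdeal)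
    (S : Finset (HeightOneSpectrum B)) (hS : w0 ∉ S) :
    ∃ b : B, b ≠ 0 ∧ (∀ w ∈ S, b ∉ w.asIdeal) ∧
      ∃ a' : A, Algebra.norm k (algebraMap B F b) = algebraMap A k (a * a') := by
  classical
  have hinj : Function.Injective (algebraMap A B) :=
    algebraMap_injective_of_field_isFractionRing A B k F
  haveI : FaithfulSMul A B := (faithfulSMul_iff_algebraMap_injective A B).mpr hinj
  haveI : Module.IsTorsionFree A B := inferInstance
  have hover : Ideal.span {a} = w0.asIdeal.comap (algebraMap A B) := by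
    refine hmax.eq_of_le (Ideal.comap_ne_top _ w0.isPrime.ne_top) ?_
    rw [Ideal.span_singleton_le_iff_mem]
    exact ha
  -- prime avoidance
  have h1 : ¬ ((w0.asIdeal : Set B) ⊆ ⋃ w ∈ (S : Set (HeightOneSpectrum B)), w.asIdeal) := by
    rw [Ideal.subset_union_prime w0 w0 (fun w _ _ _ => w.isPrime)]
    rintro ⟨w, hw, hle⟩
    have : w0.asIdeal = w.asIdeal := w0.isMaximal.eq_of_le w.isPrime.ne_top hle
    exact hS (HeightOneSpectrum.ext this ▸ hw)
  rw [Set.not_subset] at h1
  obtain ⟨b0, hb0, hb0'⟩ := h1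
  simp only [Set.mem_iUnion, not_exists] at hb0'
  have key : ∀ b : B, b ∈ w0.asIdeal →
      ∃ a' : A, Algebra.norm k (algebraMap B F b) = algebraMap A k (a * a') := by
    intro b hb
    have h2 : Algebra.intNorm A B b ∈ Ideal.span {a} := by
      rw [hover, Ideal.mem_comap]
      exact Ideal.mem_of_dvd _ (Algebra.dvd_algebraMap_intNorm_self A B b) hb
    obtain ⟨a', ha'⟩ := Ideal.mem_span_singleton'.1 h2
    refine ⟨a', ?_⟩
    rw [← Algebra.algebraMap_intNorm (A := A) (K := k) (L := F) (B := B), ← ha', mul_comm]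
  rcases eq_or_ne b0 0 with h0 | h0
  · refine ⟨algebraMap A B a, fun h => ha0 (hinj (by rw [h, map_zero])), ?_, key _ ha⟩
    intro w hw
    exact absurd (h0 ▸ w.asIdeal.zero_mem) (hb0' w hw)
  · exact ⟨b0, h0, fun w hw => hb0' w hw, key _ hb0⟩

end Sum

end Fermat.Agent.S24
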